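/-
S18 / wave 4 (helper19): DEFINITIONS of core 2 (reports #1324, #1411).

`DSetup A₀ O₀ x`: the analogue, over the fraction field `K₀` of a discrete valuation ring `A₀`
(in the application: a number field `K₀ ⊆ ℚ̄` and `A₀ = A ∩ K₀`), of the abstract setup of the
route: a function field `F₀/K₀` in one variable with a "Gauss" valuation ring `O₀` and a base
function `x`.  `chart A₀ x` is the integral closure of `A₀[x]` in `F₀`.
-/
import Mathlib

set_option autoImplicit false

open Polynomial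

noncomputable section

namespace Fermat.Agent.S18.H19

variable (A₀ : Type*) [CommRing A₀] {F₀ : Type*} [Field F₀] [Algebra A₀ F₀]

/-- `K₀(x) ⊆ F₀` (`K₀ = Frac A₀`), as a subfield of `F₀`. -/
def ratSub (x : F₀) : Subfield F₀ :=
  Subfield.closure (Set.range (algebraMap A₀ F₀) ∪ {x})

/-- The descended setup: a valuation ring `O₀` of `F₀` and a base function `x` such that
* `O₀ ∩ K₀ = A₀`, `O₀ ∩ K₀(x)` is the Gauss valuation ring, the value group of `O₀` is that
  of `A₀`;
* `F₀/K₀(x)` is finite with an orthonormal basis with unit Gram determinant (residue degree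
  `[F₀ : K₀(x)]`, separable residue extension);
* a discrete valuation ring `V` of `F₀/K₀` with `x ∈ V` whose centre is not one of finitely many
  pairwise incongruent points of `A₀` is unramified over `K₀[x]` (it has a uniformiser which is
  a polynomial in `x`);
* the residue field of `A₀` is algebraically closed in the residue field of `O₀`, and `A₀` is
  integrally closed in `F₀`. -/
structure DSetup (O₀ : ValuationSubring F₀) (x : F₀) : Prop where
  /-- `O₀ ∩ K₀ = A₀`. -/
  mem_iff : ∀ a b : A₀, b ≠ 0 → (algebraMap A₀ F₀ a / algebraMap A₀ F₀ b ∈ O₀ ↔ b ∣ a)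
  /-- `O₀ ∩ K₀(x)` is the Gauss valuation ring: a polynomial in `x` with a unit coefficient is a
  unit of `O₀`. -/
  gauss : ∀ P : A₀[X], (∃ i, IsUnit (P.coeff i)) → aeval x P ∈ O₀ ∧ (aeval x P)⁻¹ ∈ O₀
  /-- the value group of `O₀` is that of `A₀`. -/
  scale : ∀ f : F₀, f ≠ 0 → ∃ a b : A₀, a ≠ 0 ∧ b ≠ 0 ∧
    algebraMap A₀ F₀ a / algebraMap A₀ F₀ b * f ∈ O₀ ∧
    (algebraMap A₀ F₀ a / algebraMap A₀ F₀ b * f)⁻¹ ∈ O₀
  /-- `x` is transcendental over `A₀`. -/
  transc : Transcendental A₀ x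
  /-- `F₀/K₀(x)` is finite. -/
  finite : Module.Finite (ratSub A₀ x) F₀
  /-- an orthonormal `K₀(x)`-basis of `F₀` with unit Gram determinant. -/
  basis : ∃ θ : Fin (Module.finrank (ratSub A₀ x) F₀) → F₀,
    (∀ r : Fin (Module.finrank (ratSub A₀ x) F₀) → ratSub A₀ x,
      (∑ i, (r i : F₀) * θ i) ∈ O₀ ↔ ∀ i, (r i : F₀) ∈ O₀) ∧
    (((Matrix.of fun i j => Algebra.trace (ratSub A₀ x) F₀ (θ i * θ j)).det : ratSub A₀ x) :
      F₀)⁻¹ ∈ O₀
  /-- branch points: a discrete valuation ring `V` of `F₀/K₀` with `x ∈ V` whose centre is not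
  one of the pairwise incongruent points of `S` has a uniformiser which is a polynomial in `x`
  (i.e. `V` is unramified over `K₀[x]`). -/
  branch : ∃ S : Finset A₀, (∀ a ∈ S, ∀ b ∈ S, a ≠ b → IsUnit (a - b)) ∧
    ∀ V : ValuationSubring F₀, (∀ a : A₀, a ≠ 0 → (algebraMap A₀ F₀ a)⁻¹ ∈ V) →
      IsDiscreteValuationRing V → x ∈ V → (∀ a ∈ S, (x - algebraMap A₀ F₀ a)⁻¹ ∈ V) →
      ∃ g : A₀[X], aeval x g ∈ V ∧ (aeval x g)⁻¹ ∉ V ∧ ∀ t ∈ V, t⁻¹ ∉ V → t / aeval x g ∈ V
  /-- the residue field of `A₀` is algebraically closed in the residue field of `O₀`. -/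
  const : ∀ γ ∈ O₀, (∃ P : A₀[X], P.Monic ∧ aeval γ P ∈ O₀.nonunits) →
    ∃ a : A₀, γ - algebraMap A₀ F₀ a ∈ O₀.nonunits
  /-- `A₀` is integrally closed in `F₀` (`K₀` is algebraically closed in `F₀`). -/
  const₀ : ∀ y : F₀, IsIntegral A₀ y → ∃ a : A₀, y = algebraMap A₀ F₀ a

/-- The chart: the integral closure of `A₀[x]` in `F₀`. -/
def chart (x : F₀) : Subalgebra A₀ F₀ :=
  (integralClosure (Algebra.adjoin A₀ ({x} : Set F₀)) F₀).restrictScalars A₀

theorem mem_chart_iff {x y : F₀} :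
    y ∈ chart A₀ x ↔ IsIntegral (Algebra.adjoin A₀ ({x} : Set F₀)) y := Iff.rfl

theorem self_mem_chart (x : F₀) : x ∈ chart A₀ x := by
  rw [mem_chart_iff]
  exact isIntegral_algebraMap (x := (⟨x, Algebra.subset_adjoin rfl⟩ : Algebra.adjoin A₀ {x}))

/-- The algebra structure `A₀ → K₀ → F₀` for a valuation subring `A₀` of a field `K₀`. -/
@[reducible] def algComap {K₀ : Type*} [Field K₀] (V : ValuationSubring K₀) (E : Type*)
    [Field E] [Algebra K₀ E] : Algebra ↥V E :=
  ((algebraMap K₀ E).comp V.subtype).toAlgebra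

end Fermat.Agent.S18.H19
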