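/-
S18 / wave 4 (helper19), core 2, leaf K2-D: **Theorem D in chart form**.

`theoremD_chart`: for the chart `C = chart A₀ x` (integral closure of `A₀[x]` in `F₀`), if `ϖ C`
is prime, the special fibre is trace-separable and the horizontal primes off finitely many
pairwise incongruent sections are unramified over `A₀[x]`, then `C/ϖ` is a Dedekind domain.
From the landed abstract Theorem D (`H8.theoremD`) and the integral-closure package
(`H95.ChartPkg`).
-/
import Fermat.Agent.S18.H19.Core2Defs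
import Fermat.Agent.S18.H8.TheoremDFinal
import Fermat.Agent.S18.H95.ChartPkg

set_option autoImplicit false
set_option linter.style.haveILetI false

open Polynomial

noncomputable section

namespace Fermat.Agent.S18.H19

variable {A₀ : Type*} [CommRing A₀] [IsDomain A₀] [IsDiscreteValuationRing A₀] [CharZero A₀]
  {F₀ : Type*} [Field F₀] [Algebra A₀ F₀] [FaithfulSMul A₀ F₀]

/-- A domain which is integral over a principal ideal domain and integrally closed and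
noetherian is a Dedekind domain. -/
theorem isDedekindDomain_of_integral_pid (R S : Type*) [CommRing R] [IsDomain R]
    [IsPrincipalIdealRing R] [CommRing S] [IsDomain S] [Algebra R S] [Algebra.IsIntegral R S]
    [IsNoetherianRing S] [IsIntegrallyClosed S] : IsDedekindDomain S :=
  { toIsDomain := inferInstance
    toIsDedekindRing :=
      { toIsNoetherian := inferInstance
        toDimensionLEOne := ⟨fun {P} hP hPp => by
            have h1 : P.comap (algebraMap R S) ≠ ⊥ := by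
              obtain ⟨x, hx, hx0⟩ := Submodule.exists_mem_ne_zero_of_ne_bot hP
              exact Ideal.comap_ne_bot_of_integral_mem hx0 hx (Algebra.IsIntegral.isIntegral x)
            have h2 : (P.comap (algebraMap R S)).IsMaximal :=
              Ring.DimensionLEOne.maximalOfPrime h1 (Ideal.comap_isPrime _ _)
            exact Ideal.isMaximal_of_isIntegral_of_isMaximal_comap P h2⟩
        toIsIntegralClosure := inferInstance } }

theorem theoremD_chart
    (ϖ : A₀) (hϖ : Irreducible ϖ) (x : F₀)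
    (htr : Transcendental A₀ x) (hfin : Module.Finite (ratSub A₀ x) F₀)
    (hprime : ∀ a ∈ chart A₀ x, ∀ b ∈ chart A₀ x, (∃ c ∈ chart A₀ x, a * b = ϖ • c) →
      (∃ c ∈ chart A₀ x, a = ϖ • c) ∨ (∃ c ∈ chart A₀ x, b = ϖ • c))
    (hone : ¬ ∃ c ∈ chart A₀ x, (1 : F₀) = ϖ • c)
    (hsep : ∀ c ∈ chart A₀ x,
      (∀ c' ∈ chart A₀ x, ∃ q : A₀[X],
        ((Algebra.trace (ratSub A₀ x) F₀ (c * c') : ratSub A₀ x) : F₀) =
          Polynomial.aeval x (Polynomial.C ϖ * q)) →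
      ∃ c'' ∈ chart A₀ x, c = ϖ • c'')
    (S : Finset A₀) (hS : ∀ a ∈ S, ∀ b ∈ S, a ≠ b → IsUnit (a - b))
    (hram : ∀ 𝔮 : Ideal ↥(chart A₀ x), 𝔮.IsPrime → 𝔮 ≠ ⊥ →
        algebraMap A₀ ↥(chart A₀ x) ϖ ∉ 𝔮 →
        (∀ a ∈ S, (⟨x, self_mem_chart A₀ x⟩ - algebraMap A₀ ↥(chart A₀ x) a) ∉ 𝔮) →
        ∃ g : A₀[X], Polynomial.aeval (⟨x, self_mem_chart A₀ x⟩ : ↥(chart A₀ x)) g ∈ 𝔮 ∧
          ∀ t ∈ 𝔮, ∃ s ∉ 𝔮, ∃ c : ↥(chart A₀ x),
            s * t = Polynomial.aeval (⟨x, self_mem_chart A₀ x⟩ : ↥(chart A₀ x)) g * c) :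
    IsDedekindDomain (↥(chart A₀ x) ⧸ Ideal.span {algebraMap A₀ ↥(chart A₀ x) ϖ}) := by
  classical
  letI algC : Algebra A₀[X] ↥(chart A₀ x) := H95.chartAlgebra (A₀ := A₀) x
  haveI hfinC : Module.Finite A₀[X] ↥(chart A₀ x) := H95.chart_finite_sub x htr hfin
  haveI htfC : Module.IsTorsionFree A₀[X] ↥(chart A₀ x) := H95.chart_torsionFree_sub x htr
  haveI hicC : IsIntegrallyClosed ↥(chart A₀ x) := H95.isIntegrallyClosed_chart x
  have halg : ∀ p : A₀[X], algebraMap A₀[X] ↥(chart A₀ x) p =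
      Polynomial.aeval (⟨x, self_mem_chart A₀ x⟩ : ↥(chart A₀ x)) p := fun p => rfl
  set ϖC : ↥(chart A₀ x) := algebraMap A₀ ↥(chart A₀ x) ϖ with hϖC
  have hCϖ : algebraMap A₀[X] ↥(chart A₀ x) (C ϖ) = ϖC := by
    rw [halg, Polynomial.aeval_C]
  -- divisibility by `ϖ` in the chart
  have hdvd : ∀ a : ↥(chart A₀ x), ϖC ∣ a ↔ ∃ c ∈ chart A₀ x, (a : F₀) = ϖ • c := by
    intro a
    constructor
    · rintro ⟨c, rfl⟩
      exact ⟨c, c.2, by rw [hϖC, Algebra.smul_def]; rfl⟩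
    · rintro ⟨c, hc, h⟩
      exact ⟨⟨c, hc⟩, Subtype.ext (by rw [h, hϖC, Algebra.smul_def]; rfl)⟩
  have hϖF : algebraMap A₀ F₀ ϖ ≠ 0 := by
    intro h
    exact hϖ.ne_zero ((FaithfulSMul.algebraMap_injective A₀ F₀) (by rw [h, map_zero]))
  have hprimeC : Prime ϖC := by
    refine ⟨?_, ?_, ?_⟩
    · intro h0
      apply hϖF
      have := congrArg (fun z : ↥(chart A₀ x) => (z : F₀)) h0
      simpa [hϖC] using this
    · intro hu
      apply hone
      have h1 : ϖC ∣ (1 : ↥(chart A₀ x)) := hu.dvd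
      obtain ⟨c, hc, h⟩ := (hdvd 1).mp h1
      exact ⟨c, hc, by simpa using h⟩
    · intro a b hab
      obtain ⟨c, hc, h⟩ := (hdvd (a * b)).mp hab
      rcases hprime a a.2 b b.2 ⟨c, hc, by simpa using h⟩ with h1 | h1
      · exact Or.inl ((hdvd a).mpr h1)
      · exact Or.inr ((hdvd b).mpr h1)
  have hdom : (Ideal.span {algebraMap A₀[X] ↥(chart A₀ x) (C ϖ)}).IsPrime := by
    rw [hCϖ]
    exact (Ideal.span_singleton_prime hprimeC.ne_zero).mpr hprimeC
  -- separability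
  have hsep' : ∀ c : ↥(chart A₀ x),
      (∀ c' : ↥(chart A₀ x), C ϖ ∣ Algebra.intTrace A₀[X] ↥(chart A₀ x) (c * c')) →
        algebraMap A₀[X] ↥(chart A₀ x) (C ϖ) ∣ c := by
    intro c hc
    rw [hCϖ, hdvd]
    refine hsep c c.2 (fun c' hc' => ?_)
    obtain ⟨q, hq⟩ := hc ⟨c', hc'⟩
    refine ⟨q, ?_⟩
    letI : Algebra A₀[X] ↥(ratSub A₀ x) := H95.polyAlgSub (A₀ := A₀) x
    letI : Algebra A₀[X] F₀ := H95.polyAlgF (A₀ := A₀) x
    haveI : IsFractionRing A₀[X] ↥(ratSub A₀ x) := H95.isFractionRing_sub x htr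
    haveI : IsScalarTower A₀[X] ↥(ratSub A₀ x) F₀ :=
      H95.poly_tower x _ (H95.polyAlgSub_apply x)
    haveI : IsScalarTower A₀[X] ↥(chart A₀ x) F₀ :=
      H95.chart_tower x (chart A₀ x) (H95.chartAlgebra_apply x)
    haveI : IsIntegralClosure ↥(chart A₀ x) A₀[X] F₀ :=
      H95.chart_isIntegralClosure x (chart A₀ x) (fun _ => Iff.rfl)
    haveI : FiniteDimensional ↥(ratSub A₀ x) F₀ := hfin
    have key := Algebra.algebraMap_intTrace (A := A₀[X]) (K := ↥(ratSub A₀ x)) (L := F₀)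
      (B := ↥(chart A₀ x)) (c * ⟨c', hc'⟩)
    rw [hq] at key
    have key' := congrArg (fun z : ↥(ratSub A₀ x) => (z : F₀)) key
    exact key'.symm
  -- ramification
  have hram' : ∀ (𝔮 : Ideal ↥(chart A₀ x)) [𝔮.IsPrime], 𝔮 ≠ ⊥ →
      algebraMap A₀[X] ↥(chart A₀ x) (Polynomial.C ϖ) ∉ 𝔮 →
      (∀ a ∈ S, algebraMap A₀[X] ↥(chart A₀ x) (X - Polynomial.C a) ∉ 𝔮) →
      algebraMap A₀[X] ↥(chart A₀ x) 1 ∉ 𝔮 →
      ∃ g : A₀[X], IsLocalRing.maximalIdeal (Localization.AtPrime 𝔮) =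
        Ideal.span {algebraMap ↥(chart A₀ x) (Localization.AtPrime 𝔮)
          (algebraMap A₀[X] ↥(chart A₀ x) g)} := by
    intro 𝔮 h𝔮 hbot hϖ𝔮 hS𝔮 _
    have hS𝔮' : ∀ a ∈ S,
        (⟨x, self_mem_chart A₀ x⟩ - algebraMap A₀ ↥(chart A₀ x) a) ∉ 𝔮 := by
      intro a ha
      have := hS𝔮 a ha
      rwa [halg, map_sub, Polynomial.aeval_X, Polynomial.aeval_C] at this
    obtain ⟨g, hg𝔮, hgen⟩ := hram 𝔮 h𝔮 hbot (by rwa [hCϖ] at hϖ𝔮) hS𝔮'
    refine ⟨g, ?_⟩
    rw [halg, ← IsLocalization.AtPrime.map_eq_maximalIdeal 𝔮 (Localization.AtPrime 𝔮)]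
    apply le_antisymm
    · rw [Ideal.map_le_iff_le_comap]
      intro t ht
      obtain ⟨s, hs, c, hsc⟩ := hgen t ht
      rw [Ideal.mem_comap, Ideal.mem_span_singleton]
      have hsu : IsUnit (algebraMap ↥(chart A₀ x) (Localization.AtPrime 𝔮) s) :=
        IsLocalization.map_units (Localization.AtPrime 𝔮) (⟨s, hs⟩ : 𝔮.primeCompl)
      obtain ⟨su, hsu'⟩ := hsu
      refine ⟨algebraMap _ _ c * ↑su⁻¹, ?_⟩
      have h1 := congrArg (algebraMap ↥(chart A₀ x) (Localization.AtPrime 𝔮)) hsc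
      rw [map_mul, map_mul, ← hsu'] at h1
      calc algebraMap ↥(chart A₀ x) (Localization.AtPrime 𝔮) t
          = ↑su⁻¹ * (↑su * algebraMap ↥(chart A₀ x) (Localization.AtPrime 𝔮) t) := by
            rw [← mul_assoc, Units.inv_mul, one_mul]
        _ = _ := by rw [h1]; ring
    · rw [Ideal.span_le, Set.singleton_subset_iff]
      exact Ideal.mem_map_of_mem _ hg𝔮
  have hD := H8.theoremD ϖ hϖ hdom hsep' S hS 1 ⟨1, isUnit_one, by simp⟩ hram'
  rw [hCϖ] at hD hdom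
  -- Dedekind
  haveI := hdom
  haveI : IsDomain (↥(chart A₀ x) ⧸ Ideal.span {ϖC}) := Ideal.Quotient.isDomain _
  haveI : IsNoetherianRing ↥(chart A₀ x) := IsNoetherianRing.of_finite A₀[X] _
  obtain ⟨hRdom, hRpid⟩ := H8.quotient_isDomain_isPrincipalIdealRing (A₀ := A₀) ϖ hϖ
  have hle : Ideal.span {(C ϖ : A₀[X])} ≤
      (Ideal.span {ϖC}).comap (algebraMap A₀[X] ↥(chart A₀ x)) := by
    rw [Ideal.span_le, Set.singleton_subset_iff]
    rw [SetLike.mem_coe, Ideal.mem_comap, hCϖ]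
    exact Ideal.subset_span rfl
  haveI : IsPrincipalIdealRing
      (A₀[X] ⧸ (Ideal.span {ϖC}).comap (algebraMap A₀[X] ↥(chart A₀ x))) :=
    IsPrincipalIdealRing.of_surjective (Ideal.Quotient.factor hle)
      (Ideal.Quotient.factor_surjective hle)
  exact isDedekindDomain_of_integral_pid
    (A₀[X] ⧸ (Ideal.span {ϖC}).comap (algebraMap A₀[X] ↥(chart A₀ x))) _

end Fermat.Agent.S18.H19
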