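/-
S18 / Program J, CORE 2 (helper19): the abstract Theorem T for prime exponents
(`H74.AbsTStatement`) over `ℚ̄`, by descent to a number field, Theorem D on the two affine
charts and the Kummer–Čech argument.  Independent of core 1 (the clearing lemma).

  absT_prime_nf  ⟸  `exists_descent`   (K2-N: descent of the Setup to a number field)
                  +  `dvr_core`         (abstract, over the DVR `A₀`)
  dvr_core       ⟸  chart package (H6, H50, H60, H72, H92, H95)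
                  +  `theoremD_chart`   (H19/TheoremDChart.lean, from H8.theoremD)
                  +  `H86.cech_charts`  (K2-C: the Kummer–Čech theorem)
-/
import Fermat.Agent.S18.H74.Setup
import Fermat.Agent.S18.H19.Core2Defs
import Fermat.Agent.S18.H19.TheoremDChart
import Fermat.Agent.S18.H6.ChartA
import Fermat.Agent.S18.H50.ChartRamFinal
import Fermat.Agent.S18.H95.ChartD
import Fermat.Agent.S18.H92.ChartE
import Fermat.Agent.S18.H72.ChartConst
import Fermat.Agent.S18.H60.AbsTAlgebraic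
import Fermat.Agent.S18.H78.DSetupInv
import Fermat.Agent.S18.H6.ChartSep
import Fermat.Agent.S18.H86.CechCharts
import Fermat.Agent.S18.H8.Descent

set_option autoImplicit false

open AlgebraicCurve IntermediateField Polynomial

noncomputable section

namespace Fermat.Agent.S18.H19

open Fermat.Agent.S18.H74

/-! ### Assembly over the DVR -/

/-- `ϖ C` is a prime ideal of the chart, in elementwise form. -/
theorem chart_prime
    {A₀ : Type*} [CommRing A₀] [IsDomain A₀] [IsDiscreteValuationRing A₀] [CharZero A₀]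
    (ϖ : A₀) (hϖ : Irreducible ϖ)
    {F₀ : Type*} [Field F₀] [Algebra A₀ F₀] [FaithfulSMul A₀ F₀]
    (O₀ : ValuationSubring F₀) (y : F₀) (hy : DSetup A₀ O₀ y) :
    (∀ a ∈ chart A₀ y, ∀ b ∈ chart A₀ y, (∃ c ∈ chart A₀ y, a * b = ϖ • c) →
      (∃ c ∈ chart A₀ y, a = ϖ • c) ∨ (∃ c ∈ chart A₀ y, b = ϖ • c)) ∧
    ¬ ∃ c ∈ chart A₀ y, (1 : F₀) = ϖ • c := by
  have hϖm : algebraMap A₀ F₀ ϖ ∈ O₀.nonunits := by
    rw [ValuationSubring.mem_nonunits_iff_or]
    right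
    intro h
    have h1 := (hy.mem_iff 1 ϖ hϖ.ne_zero).mp (by simpa using h)
    exact hϖ.not_isUnit (isUnit_of_dvd_one h1)
  have key : ∀ c ∈ chart A₀ y, ϖ • c ∈ O₀.nonunits := by
    intro c hc
    have hcO := H6.chart_le O₀ y hy c hc
    rw [Algebra.smul_def, ValuationSubring.mem_nonunits_iff, map_mul]
    exact mul_lt_one_of_lt_of_le ((ValuationSubring.mem_nonunits_iff _).mp hϖm)
      ((ValuationSubring.valuation_le_one_iff _ _).mpr hcO)
  refine ⟨fun a ha b hb ⟨c, hc, hab⟩ => ?_, ?_⟩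
  · have hab' : a * b ∈ O₀.nonunits := hab ▸ key c hc
    rw [ValuationSubring.mem_nonunits_iff, map_mul] at hab'
    have haO := (ValuationSubring.valuation_le_one_iff _ _).mpr (H6.chart_le O₀ y hy a ha)
    have hbO := (ValuationSubring.valuation_le_one_iff _ _).mpr (H6.chart_le O₀ y hy b hb)
    by_cases ha1 : O₀.valuation a < 1
    · exact Or.inl (H6.chart_mem_nonunits ϖ hϖ O₀ y hy a ha
        ((ValuationSubring.mem_nonunits_iff _).mpr ha1))
    · have ha1' : O₀.valuation a = 1 := le_antisymm haO (not_lt.mp ha1)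
      rw [ha1', one_mul] at hab'
      exact Or.inr (H6.chart_mem_nonunits ϖ hϖ O₀ y hy b hb
        ((ValuationSubring.mem_nonunits_iff _).mpr hab'))
  · rintro ⟨c, hc, h1⟩
    have := key c hc
    rw [← h1, ValuationSubring.mem_nonunits_iff, map_one] at this
    exact lt_irrefl _ this

/-- **Theorem N** (abstract Theorem T over a DVR): a one-unit whose divisor on `F₀/K₀` is
divisible by `m` is a constant times an `m`-th power. -/
theorem dvr_core
    {A₀ : Type*} [CommRing A₀] [IsDomain A₀] [IsDiscreteValuationRing A₀] [CharZero A₀]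
    (ϖ : A₀) (hϖ : Irreducible ϖ)
    {F₀ : Type*} [Field F₀] [Algebra A₀ F₀] [FaithfulSMul A₀ F₀]
    (O₀ : ValuationSubring F₀) (x : F₀)
    (hS : DSetup A₀ O₀ x) (hS' : DSetup A₀ O₀ x⁻¹)
    (m : ℕ) (hm : IsUnit (m : A₀)) (u : F₀) (hu : u - 1 ∈ O₀.nonunits)
    (hdiv : ∀ V : ValuationSubring F₀, (∀ a : A₀, a ≠ 0 → (algebraMap A₀ F₀ a)⁻¹ ∈ V) →
      IsDiscreteValuationRing V → ∃ t : F₀, t ≠ 0 ∧ u / t ^ m ∈ V ∧ (u / t ^ m)⁻¹ ∈ V) :
    ∃ (a : A₀) (h : F₀), h ≠ 0 ∧ u * h ^ m = algebraMap A₀ F₀ a := by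
  have hx0 : x ≠ 0 := fun h => hS.transc (by rw [h]; exact isAlgebraic_zero)
  have := H95.chart_isIntegrallyClosed' (A₀ := A₀) x
  have := H95.chart_isIntegrallyClosed' (A₀ := A₀) x⁻¹
  obtain ⟨S, hSu, hram⟩ := H50.chart_ram ϖ hϖ O₀ x hS
  obtain ⟨S', hSu', hram'⟩ := H50.chart_ram ϖ hϖ O₀ x⁻¹ hS'
  have hded₁ := theoremD_chart ϖ hϖ x hS.transc hS.finite (chart_prime ϖ hϖ O₀ x hS).1
    (chart_prime ϖ hϖ O₀ x hS).2 (H6.chart_sep ϖ hϖ O₀ x hS) S hSu hram
  have hded₂ := theoremD_chart ϖ hϖ x⁻¹ hS'.transc hS'.finite (chart_prime ϖ hϖ O₀ _ hS').1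
    (chart_prime ϖ hϖ O₀ _ hS').2 (H6.chart_sep ϖ hϖ O₀ x⁻¹ hS') S' hSu' hram'
  obtain ⟨h, hh0, hh1, hh2⟩ := H86.cech_charts ϖ hϖ m hm x (chart A₀ x) (chart A₀ x⁻¹)
    (self_mem_chart A₀ x) (self_mem_chart A₀ x⁻¹)
    (H95.chart_fin O₀ x hS) (H95.chart_fin O₀ x⁻¹ hS') (H95.chart_frac O₀ x hS)
    (H92.chart_glue x hx0) hded₁ hded₂ (H6.chart_jbar ϖ hϖ O₀ x hS) u
    (H6.chart_oneUnit ϖ hϖ O₀ x hS u hu) hdiv
    (H72.chart_const_of ϖ hϖ.not_isUnit O₀ x hS hS' (H6.chart_mem_nonunits ϖ hϖ O₀ x hS))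
  obtain ⟨a, ha⟩ := H72.chart_inter O₀ x hS _ hh1 hh2
  exact ⟨a, h, hh0, ha⟩

local notation "Qb" => AlgebraicClosure ℚ

/-! ### Core 2: the abstract Theorem T for prime exponents over `ℚ̄` -/

/-- **Core 2** = `H74.absT_prime` for `K = ℚ̄`. -/
theorem absT_prime_nf (A : ValuationSubring Qb) (hA : A ≠ ⊤) {F : Type} [Field F]
    [Algebra Qb F] (O : ValuationSubring F) (x : F) (hS : Setup Qb A F O x)
    (p : ℕ) (hp : p.Prime) (hpA : ((p : Qb))⁻¹ ∈ A) (u : F) (hu : u - 1 ∈ O.nonunits)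
    (hord : ∀ P : Place Qb F, (p : ℤ) ∣ P.ord u) : ∃ w : F, u = w ^ p := by
  by_cases hx : IsAlgebraic Qb x
  · exact H60.absT_of_algebraic A O x hx hS p hp u
  obtain ⟨K₀, F₀, hx₀, hu₀, hdvr, hrest⟩ := H8.exists_descent A hA O x hx hS p hp u hu hord
  let _ := algComap (A.comap (algebraMap K₀ Qb)) F₀
  obtain ⟨hS₁, hS₂, hu₁, hdiv⟩ := hrest
  have : FaithfulSMul ↥(A.comap (algebraMap K₀ Qb)) ↥F₀ := by
    rw [faithfulSMul_iff_algebraMap_injective]
    exact (algebraMap K₀ F₀).injective.comp Subtype.val_injective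
  obtain ⟨ϖ, hϖ⟩ := IsDiscreteValuationRing.exists_irreducible ↥(A.comap (algebraMap K₀ Qb))
  have hm : IsUnit ((p : ℕ) : ↥(A.comap (algebraMap K₀ Qb))) := by
    have hmem : ((p : K₀))⁻¹ ∈ A.comap (algebraMap K₀ Qb) := by
      rw [ValuationSubring.mem_comap, map_inv₀, map_natCast]
      exact hpA
    have hp0 : (p : K₀) ≠ 0 := Nat.cast_ne_zero.mpr hp.ne_zero
    refine isUnit_iff_exists_inv.mpr ⟨⟨_, hmem⟩, Subtype.ext ?_⟩
    push_cast
    exact mul_inv_cancel₀ hp0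
  obtain ⟨a, h, hh0, hah⟩ := dvr_core ϖ hϖ (O.comap (algebraMap F₀ F)) (⟨x, hx₀⟩ : F₀) hS₁ hS₂
    p hm ⟨u, hu₀⟩ hu₁ hdiv
  -- `u * h ^ p = a` in `F`, with `a ∈ ℚ̄` a `p`-th power
  obtain ⟨b, hb⟩ := IsAlgClosed.exists_pow_nat_eq ((a : K₀) : Qb) hp.pos
  have hF : u * (h : F) ^ p = algebraMap Qb F ((a : K₀) : Qb) := by
    have h1 := congrArg (fun z : F₀ => (z : F)) hah
    have e : ((algebraMap ↥(A.comap (algebraMap K₀ Qb)) ↥F₀ a : F₀) : F) =
        algebraMap Qb F ((a : K₀) : Qb) := rfl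
    rw [← e, ← h1]
    simp
  have hh0' : (h : F) ≠ 0 := by simpa using hh0
  refine ⟨algebraMap Qb F b / (h : F), ?_⟩
  rw [div_pow, ← map_pow, hb, ← hF]
  field_simp

end Fermat.Agent.S18.H19
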