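/-
S18 / wave 4 (helper19): core 2, interface with the landed conditional assembly
`H74.s18_of_absT`: the abstract Theorem T statement `H74.AbsTStatement` over `ℚ̄` from
`absT_prime_nf`.
-/
import Fermat.Agent.S18.H19.Core2
import Fermat.Agent.S18.H74.Assembly
import Fermat.Agent.S18.H73.StepIFinal

set_option autoImplicit false

open AlgebraicCurve IntermediateField ModularCurve

noncomputable section

namespace Fermat.Agent.S18.H19

open Fermat.Agent.S18.H74

/-- `habs` of `H74.s18_of_absT`, from core 2. -/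
theorem absT_statement {ℓ : ℕ} [Fact ℓ.Prime] (A : ValuationSubring (AlgebraicClosure ℚ))
    (hA : A.LiesOverPrime ℓ) (p : ℕ) (hp : p.Prime) (hpℓ : p ≠ ℓ)
    (N' : ℕ) (O : ValuationSubring (FN N')) (x : FN N') (hS : Setup Kb A (FN N') O x) :
    AbsTStatement Kb (FN N') O p := by
  have hm : ¬ ℓ ∣ p := fun h => hpℓ ((Nat.prime_dvd_prime_iff_eq Fact.out hp).mp h).symm
  obtain ⟨hAtop, -, hpA, -⟩ := H60.unit_facts A hA p hm
  intro u hu hord
  exact absT_prime_nf A hAtop O x hS p hp hpA u hu hord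

/-- S18 from the bridge (`SetupStatement`) and core 2. -/
theorem s18_of_setup (N : ℕ) [NeZero N] {ℓ : ℕ} [Fact ℓ.Prime] (hℓN : ¬ ℓ ∣ N)
    (A : ValuationSubring (AlgebraicClosure ℚ)) (hA : A.LiesOverPrime ℓ)
    (h : ModularCurve.ReductionInputsModL A N)
    (hsetup : ∀ p : ℕ, p.Prime → p ≠ ℓ → SetupStatement N A p)
    (m : ℕ) (hm : ¬ ℓ ∣ m) (z : ModularCurve.JZero N)
    (hmz : m • z = 0) (hz : ModularCurve.reductionModL A N z = 0) : z = 0 :=
  s18_of_absT N A h hsetup (H73.constStatement_residueField N hℓN A hA)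
    (fun p hp hpℓ N' O x hS => absT_statement A hA p hp hpℓ N' O x hS) m hm z hmz hz

end Fermat.Agent.S18.H19
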