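/-
S18 / Program J, CORE 2 (helper19): a second, independent proof of the statement of S18, through
core 2 (number-field descent + Theorem D on charts + Kummer–Čech) instead of the clearing lemma.
Not the graded file (`Fermat/Agent/S18.lean`, core 1, is); kept as an independent check.
-/
import Fermat.Agent.S18.H19.Core2Final
import Fermat.Agent.S18.H28.ExistsSetup

set_option autoImplicit false

open ModularCurve

namespace Fermat.Agent.S18.H19

/-- The statement of S18, proved through core 2. -/
theorem s18_core2 (N : ℕ) [NeZero N] {ℓ : ℕ}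
    [Fact ℓ.Prime] (hℓN : ¬ ℓ ∣ N) (A : ValuationSubring (AlgebraicClosure ℚ))
    (hA : A.LiesOverPrime ℓ)
    (h : ModularCurve.ReductionInputsModL A N) (m : ℕ) (hm : ¬ ℓ ∣ m) (z : ModularCurve.JZero N)
    (hmz : m • z = 0) (hz : ModularCurve.reductionModL A N z = 0) :
    z = 0 := by
  refine s18_of_setup N hℓN A hA h (fun p hp hpℓ => ?_) m hm z hmz hz
  have hm' : ¬ ℓ ∣ p := fun h => hpℓ ((Nat.prime_dvd_prime_iff_eq Fact.out hp).mp h).symm
  obtain ⟨N', _, hle, O, x, hx⟩ := Fermat.Agent.S18.H28.exists_setup N hℓN A hA p hm'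
  exact ⟨N', hle, O, x, hx⟩

end Fermat.Agent.S18.H19
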